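import Fermat.Prelude.Def_ModularCurve_ArithmeticGalois
import Fermat.Prelude.Def_FLTPrelim_Ramification
import Fermat.Prelude.Def_EllipticCurve_FrobeniusTrace
import Mathlib.RingTheory.RootsOfUnity.Basic
import Mathlib.GroupTheory.QuotientGroup.Basic

/-!
# ES project: shared definitions (Kummer model of `J₀(N)[m]`)

* `Qb`, `GQ`, `FF N`           : `ℚ̄`, `Gal(ℚ̄/ℚ)`, the Prelude function field of `X₀(N)` over `ℚ̄`
* `Dm N m : Subgroup (FF N)ˣ`  : functions all of whose orders are divisible by `m`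
* `Kum N m`                    : `Dm N m / (FF N)ˣ ^ m`, written additively (`= Pic⁰(F)[m]`)
* `Vq`, `twist`, `contract`, `normSer`, `heckeSer` : formal operators on Laurent series;
  `heckeSer ℓ f = f(q^ℓ) * ∏_{z^ℓ = 1} f(z q^{1/ℓ})`, written without fractional exponents
* `Crux N ℓ m`                 : the statement of the arithmetic key lemma (quotient form)
-/

set_option autoImplicit false

open AlgebraicCurve ModularCurve

namespace Fermat.Agent.ES

noncomputable section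

/-- `ℚ̄`. -/
abbrev Qb : Type := AlgebraicClosure ℚ

/-- The absolute Galois group of `ℚ`. -/
abbrev GQ : Type := Qb ≃ₐ[ℚ] Qb

/-- The function field of `X₀(N)` over `ℚ̄` (a subfield of `ℚ̄((q))`). -/
abbrev FF (N : ℕ) : Type := ↥(modularFunctionFieldBar N)

/-! ### The Kummer module -/

/-- The group of nonzero functions all of whose orders are divisible by `m`. -/
def Dm (N m : ℕ) : Subgroup (FF N)ˣ where
  carrier := {f | ∀ P : Place Qb (FF N), (m : ℤ) ∣ P.ord (f : FF N)}
  one_mem' := fun P => by simp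
  mul_mem' := fun {f g} hf hg P => by
    rw [Units.val_mul, P.ord_mul f.ne_zero g.ne_zero]
    exact dvd_add (hf P) (hg P)
  inv_mem' := fun {f} hf P => by
    rw [Units.val_inv_eq_inv_val, P.ord_inv]
    exact (dvd_neg).mpr (hf P)

theorem mem_Dm {N m : ℕ} {f : (FF N)ˣ} :
    f ∈ Dm N m ↔ ∀ P : Place Qb (FF N), (m : ℤ) ∣ P.ord (f : FF N) := Iff.rfl

/-- The subgroup of `m`-th powers in `(FF N)ˣ`. -/
def Pw (N m : ℕ) : Subgroup (FF N)ˣ := (powMonoidHom m : (FF N)ˣ →* (FF N)ˣ).range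

theorem mem_Pw {N m : ℕ} {f : (FF N)ˣ} : f ∈ Pw N m ↔ ∃ h : (FF N)ˣ, h ^ m = f := Iff.rfl

theorem Pw_le_Dm (N m : ℕ) : Pw N m ≤ Dm N m := by
  rintro _ ⟨h, rfl⟩ P
  have : ((powMonoidHom m : (FF N)ˣ →* (FF N)ˣ) h : FF N) = (h : FF N) ^ (m : ℤ) := by
    simp
  rw [this, P.ord_zpow]
  exact dvd_mul_right _ _

/-- The Kummer model of `J₀(N)[m]`: `{f : m ∣ div f} / (m-th powers)`, written additively. -/
def Kum (N m : ℕ) : Type := Additive (Dm N m ⧸ (Pw N m).subgroupOf (Dm N m))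

instance Kum.instAddCommGroup (N m : ℕ) : AddCommGroup (Kum N m) :=
  inferInstanceAs (AddCommGroup (Additive (Dm N m ⧸ (Pw N m).subgroupOf (Dm N m))))

/-- The class of `f ∈ Dm N m` in `Kum N m`. -/
def Kum.mk {N m : ℕ} (f : Dm N m) : Kum N m :=
  Additive.ofMul (QuotientGroup.mk f)

theorem Kum.mk_surjective {N m : ℕ} : Function.Surjective (Kum.mk (N := N) (m := m)) := by
  intro x
  obtain ⟨f, hf⟩ := QuotientGroup.mk_surjective (Additive.toMul x)
  exact ⟨f, by rw [Kum.mk, hf]; rfl⟩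

theorem Kum.mk_mul {N m : ℕ} (f g : Dm N m) : Kum.mk (f * g) = Kum.mk f + Kum.mk g := rfl

theorem Kum.mk_one {N m : ℕ} : Kum.mk (1 : Dm N m) = 0 := rfl

theorem Kum.mk_inv {N m : ℕ} (f : Dm N m) : Kum.mk f⁻¹ = - Kum.mk f := rfl

theorem Kum.mk_pow {N m : ℕ} (f : Dm N m) (n : ℕ) : Kum.mk (f ^ n) = n • Kum.mk f := rfl

theorem Kum.mk_eq_zero_iff {N m : ℕ} (f : Dm N m) :
    Kum.mk f = 0 ↔ ∃ h : (FF N)ˣ, h ^ m = (f : (FF N)ˣ) := by
  have : Kum.mk f = 0 ↔ (QuotientGroup.mk f : Dm N m ⧸ (Pw N m).subgroupOf (Dm N m)) = 1 :=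
    Iff.rfl
  rw [this, QuotientGroup.eq_one_iff, Subgroup.mem_subgroupOf]
  exact mem_Pw

theorem Kum.mk_eq_mk_iff {N m : ℕ} (f g : Dm N m) :
    Kum.mk f = Kum.mk g ↔ ∃ h : (FF N)ˣ, h ^ m = (f : (FF N)ˣ) * (g : (FF N)ˣ)⁻¹ := by
  rw [← sub_eq_zero, sub_eq_add_neg, ← Kum.mk_inv, ← Kum.mk_mul, Kum.mk_eq_zero_iff]
  rfl

/-! ### Galois action on the function field -/

/-- The coefficientwise action of `σ ∈ G_ℚ` on the function field. -/
def galF (N : ℕ) (σ : GQ) : FF N ≃+* FF N := arithmeticRingAut (modularFunctionFieldFull N) σ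

@[simp]
theorem coe_galF (N : ℕ) (σ : GQ) (x : FF N) :
    ((galF N σ x : FF N) : LaurentSeries Qb) = coeffMap (σ : Qb →+* Qb) (x : LaurentSeries Qb) :=
  rfl

theorem galF_one (N : ℕ) : galF N 1 = RingEquiv.refl _ := by
  have := congrArg SemilinearAut.toRingAut (map_one (arithmeticGalois (L := Qb)
    (modularFunctionFieldFull N)))
  exact this

theorem galF_mul (N : ℕ) (σ τ : GQ) (x : FF N) : galF N (σ * τ) x = galF N σ (galF N τ x) := by
  have := congrArg SemilinearAut.toRingAut (map_mul (arithmeticGalois (L := Qb)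
    (modularFunctionFieldFull N)) σ τ)
  exact congrArg (fun e : FF N ≃+* FF N => e x) this

/-- Galois transport of orders. -/
theorem ord_galF (N : ℕ) (σ : GQ) (P : Place Qb (FF N)) (f : FF N) :
    (arithmeticGalois (modularFunctionFieldFull N) σ • P).ord (galF N σ f) = P.ord f :=
  SemilinearAut.ord_smul (arithmeticGalois (modularFunctionFieldFull N) σ) P f

/-- The action of `σ` on units of the function field. -/
def galU (N : ℕ) (σ : GQ) : (FF N)ˣ →* (FF N)ˣ := Units.map (galF N σ : FF N →* FF N)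

@[simp]
theorem coe_galU (N : ℕ) (σ : GQ) (f : (FF N)ˣ) : ((galU N σ f : (FF N)ˣ) : FF N) = galF N σ f :=
  rfl

theorem galU_mem_Dm {N m : ℕ} (σ : GQ) {f : (FF N)ˣ} (hf : f ∈ Dm N m) : galU N σ f ∈ Dm N m := by
  intro P
  have h := ord_galF N σ ((arithmeticGalois (modularFunctionFieldFull N) σ)⁻¹ • P) (f : FF N)
  rw [smul_inv_smul] at h
  rw [coe_galU, h]
  exact hf _

theorem galU_mem_Pw {N m : ℕ} (σ : GQ) {f : (FF N)ˣ} (hf : f ∈ Pw N m) : galU N σ f ∈ Pw N m := by
  obtain ⟨h, rfl⟩ := hf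
  exact ⟨galU N σ h, by simp [powMonoidHom_apply, map_pow]⟩

/-! ### Formal operators on Laurent series -/

section Formal

variable {R : Type*} [CommRing R]

/-- `q ↦ q^ℓ`. -/
abbrev Vq (R : Type*) [CommRing R] (ℓ : ℕ) [NeZero ℓ] : LaurentSeries R →+* LaurentSeries R :=
  qExpand R ℓ

/-- `q ↦ z q` as a function (`z` a unit): the coefficient of `q^n` is multiplied by `z^n`. -/
def twistFun (z : Rˣ) (x : LaurentSeries R) : LaurentSeries R where
  coeff n := ((z ^ n : Rˣ) : R) * x.coeff n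
  isPWO_support' := x.isPWO_support.mono fun n hn => by
    simp only [Function.mem_support, ne_eq] at hn ⊢
    intro h
    exact hn (by rw [h, mul_zero])

@[simp]
theorem twistFun_coeff (z : Rˣ) (x : LaurentSeries R) (n : ℤ) :
    (twistFun z x).coeff n = ((z ^ n : Rˣ) : R) * x.coeff n := rfl

theorem twistFun_support (z : Rˣ) (x : LaurentSeries R) :
    (twistFun z x).support = x.support := by
  ext n
  simp only [HahnSeries.mem_support, twistFun_coeff, ne_eq]
  exact not_congr (Units.mul_right_eq_zero _)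

/-- `q ↦ z q` as a ring homomorphism of `R((q))`. -/
def twist (z : Rˣ) : LaurentSeries R →+* LaurentSeries R where
  toFun := twistFun z
  map_zero' := by ext n; simp
  map_one' := by
    ext n
    rw [twistFun_coeff, HahnSeries.coeff_one]
    split_ifs with h
    · subst h; simp
    · simp
  map_add' x y := by ext n; simp [mul_add]
  map_mul' x y := by
    ext n
    rw [twistFun_coeff, HahnSeries.coeff_mul,
      HahnSeries.coeff_mul_left' (x := twistFun z x) x.isPWO_support (twistFun_support z x).le,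
      Finset.mul_sum]
    rw [show (Finset.antidiagonal x.isPWO_support (twistFun z y).isPWO_support n)
        = Finset.antidiagonal x.isPWO_support y.isPWO_support n from by
      ext ij
      simp only [Finset.mem_antidiagonal, twistFun_support]]
    refine Finset.sum_congr rfl fun ij hij => ?_
    have h : ij.1 + ij.2 = n := (Finset.mem_antidiagonal.mp hij).2.2
    rw [twistFun_coeff, twistFun_coeff, ← h, zpow_add, Units.val_mul]
    ring

@[simp]
theorem twist_coeff (z : Rˣ) (x : LaurentSeries R) (n : ℤ) :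
    (twist z x).coeff n = ((z ^ n : Rˣ) : R) * x.coeff n := rfl

/-- The contraction `∑ a_n q^n ↦ ∑ a_{ℓ n} q^n`. -/
def contract (ℓ : ℕ) [NeZero ℓ] (x : LaurentSeries R) : LaurentSeries R :=
  HahnSeries.ofSuppBddBelow (fun n : ℤ => x.coeff ((ℓ : ℤ) * n))
    ⟨min x.order 0, fun n hn => by
      by_contra hlt
      rw [not_le] at hlt
      have hℓ : (1 : ℤ) ≤ (ℓ : ℤ) := by exact_mod_cast Nat.pos_of_ne_zero (NeZero.ne ℓ)
      have h0 : n < 0 := lt_of_lt_of_le hlt (min_le_right _ _)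
      have h1 : n < x.order := lt_of_lt_of_le hlt (min_le_left _ _)
      apply hn
      apply HahnSeries.coeff_eq_zero_of_lt_order
      refine lt_of_le_of_lt ?_ h1
      nlinarith⟩

@[simp]
theorem contract_coeff (ℓ : ℕ) [NeZero ℓ] (x : LaurentSeries R) (n : ℤ) :
    (contract ℓ x).coeff n = x.coeff ((ℓ : ℤ) * n) := rfl


instance instFintypeRootsOfUnity (ℓ : ℕ) [NeZero ℓ] [IsDomain R] : Fintype (rootsOfUnity ℓ R) :=
  Fintype.ofFinite _

/-- `∏_{z^ℓ = 1} f(z q)`, a series in `q^ℓ`. -/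
def twistProd (ℓ : ℕ) [NeZero ℓ] [IsDomain R] (x : LaurentSeries R) : LaurentSeries R :=
  ∏ z : rootsOfUnity ℓ R, twist (z : Rˣ) x

/-- `∏_{z^ℓ = 1} f(z q^{1/ℓ})`. -/
def normSer (ℓ : ℕ) [NeZero ℓ] [IsDomain R] (x : LaurentSeries R) : LaurentSeries R :=
  contract ℓ (twistProd ℓ x)

/-- The multiplicative Hecke operator `f ↦ f(q^ℓ) * ∏_{z^ℓ = 1} f(z q^{1/ℓ})`. -/
def heckeSer (ℓ : ℕ) [NeZero ℓ] [IsDomain R] (x : LaurentSeries R) : LaurentSeries R :=
  Vq R ℓ x * normSer ℓ x

end Formal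

/-! ### The key arithmetic lemma (statement only) -/

/-- **CRUX** (quotient form): two `A`-integral elements of the function field with the same
nonzero reduction, whose quotient has divisor divisible by `m`, differ by an `m`-th power. -/
def Crux (N ℓ m : ℕ) : Prop :=
  ∀ A : ValuationSubring Qb, A.LiesOverPrime ℓ →
    ∀ (y₁ y₂ : LaurentSeries A)
      (h₁ : coeffMap A.subtype y₁ ∈ modularFunctionFieldBar N)
      (h₂ : coeffMap A.subtype y₂ ∈ modularFunctionFieldBar N),
      coeffMap (IsLocalRing.residue A) y₁ = coeffMap (IsLocalRing.residue A) y₂ →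
      coeffMap (IsLocalRing.residue A) y₂ ≠ 0 →
      (∀ P : Place Qb (FF N), (m : ℤ) ∣ P.ord ((⟨_, h₁⟩ : FF N) / ⟨_, h₂⟩)) →
      ∃ s : FF N, s ^ m = (⟨_, h₁⟩ : FF N) / ⟨_, h₂⟩

end

end Fermat.Agent.ES
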